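import Fermat.Agent.DedekindHadamard.Xi

/-!
# Stark's identity and the constant of Euler and Kronecker

`ξ'/ξ s = 1/s + E'/E s + log |d| / 2 + r₁ Γℝ'/Γℝ s + r₂ Γℂ'/Γℂ s` on `re s > 0`; with the
partial fractions this gives `∑ m re (1/(s - ρ))` on `re s > 1` and, at `s = 1`, `∑ m re (1/ρ)`.
-/

set_option autoImplicit false
set_option linter.style.haveILetI false

noncomputable section

universe u

open NumberField InfinitePlace Module Complex Filter Topology Set
open FA.HeckeBS FA.HeckeFE FA.DedekindZeroCount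
open Real (eulerMascheroniConstant)
open scoped Real Classical ComplexConjugate

namespace FA.DedekindHadamard

variable (K : Type u) [Field K] [NumberField K]

theorem hasDerivAt_Gammaℝ_digamma {s : ℂ} (hs : 0 < s.re) :
    HasDerivAt Gammaℝ (Gammaℝ s * ((Complex.digamma (s / 2) - Real.log π) / 2)) s := by
  have hG : DifferentiableAt ℂ Complex.Gamma (s / 2) := differentiableAt_Gamma _ fun m h => by
    have := congrArg Complex.re h
    simp at this
    linarith [(Nat.cast_nonneg m : (0 : ℝ) ≤ m)]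
  have h1 := ((hasDerivAt_id' s).neg.div_const 2).const_cpow (c := (π : ℂ))
    (Or.inl (ofReal_ne_zero.2 Real.pi_ne_zero))
  have h2 := hG.hasDerivAt.comp s ((hasDerivAt_id' s).div_const 2)
  have hne : Complex.Gamma (s / 2) ≠ 0 := Gamma_ne_zero_of_re_pos (by simp; linarith)
  rw [show Gammaℝ = fun z : ℂ => (π : ℂ) ^ (-z / 2) * Complex.Gamma (z / 2) from
    funext Gammaℝ_def]
  refine (h1.fun_mul h2).congr_deriv ?_
  simp only [Complex.digamma_def, logDeriv_apply, Function.comp_apply,
    ← ofReal_log Real.pi_pos.le, Pi.neg_apply]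
  field_simp
  ring

theorem logDeriv_Gammaℝ {s : ℂ} (hs : 0 < s.re) :
    logDeriv Gammaℝ s = (Complex.digamma (s / 2) - Real.log π) / 2 := by
  rw [logDeriv_apply, (hasDerivAt_Gammaℝ_digamma hs).deriv,
    mul_div_cancel_left₀ _ (Gammaℝ_ne_zero_of_re_pos hs)]

theorem hasDerivAt_Gammaℂ_digamma {s : ℂ} (hs : 0 < s.re) :
    HasDerivAt Gammaℂ (Gammaℂ s * (Complex.digamma s - Real.log (2 * π))) s := by
  have hG : DifferentiableAt ℂ Complex.Gamma s := differentiableAt_Gamma _ fun m h => by
    have := congrArg Complex.re h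
    simp at this
    linarith [(Nat.cast_nonneg m : (0 : ℝ) ≤ m)]
  have hc : ((2 * π : ℝ) : ℂ) ≠ 0 := ofReal_ne_zero.2 (by positivity)
  have h1 := (((hasDerivAt_id' s).neg).const_cpow (c := ((2 * π : ℝ) : ℂ)) (Or.inl hc)).const_mul
    (2 : ℂ)
  have hne : Complex.Gamma s ≠ 0 := Gamma_ne_zero_of_re_pos hs
  rw [show Gammaℂ = fun z : ℂ => 2 * ((2 * π : ℝ) : ℂ) ^ (-z) * Complex.Gamma z from
    funext fun z => by rw [Gammaℂ_def]; push_cast; rfl]
  refine (h1.fun_mul hG.hasDerivAt).congr_deriv ?_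
  simp only [Complex.digamma_def, logDeriv_apply,
    ← ofReal_log (show (0 : ℝ) ≤ 2 * π by positivity), Pi.neg_apply]
  field_simp
  ring

theorem Gammaℂ_ne_zero_pos {s : ℂ} (hs : 0 < s.re) : Gammaℂ s ≠ 0 := by
  rw [← Gammaℝ_mul_Gammaℝ_add_one]
  exact mul_ne_zero (Gammaℝ_ne_zero_of_re_pos hs)
    (Gammaℝ_ne_zero_of_re_pos (by simp; linarith))

theorem logDeriv_Gammaℂ {s : ℂ} (hs : 0 < s.re) :
    logDeriv Gammaℂ s = Complex.digamma s - Real.log (2 * π) := by
  rw [logDeriv_apply, (hasDerivAt_Gammaℂ_digamma hs).deriv,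
    mul_div_cancel_left₀ _ (Gammaℂ_ne_zero_pos hs)]

/-- The terms of the infinite places. -/
def archTerm (s : ℂ) : ℂ :=
  (nrRealPlaces K : ℂ) * ((Complex.digamma (s / 2) - Real.log π) / 2) +
    (nrComplexPlaces K : ℂ) * (Complex.digamma s - Real.log (2 * π))

theorem logDeriv_gamFac {s : ℂ} (hs : 0 < s.re) :
    logDeriv (gamFac K) s = (discLog K / 2 : ℝ) + archTerm K s := by
  have hd := discr_natAbs_ne_zero K
  have hR := (hasDerivAt_Gammaℝ_digamma hs).differentiableAt
  have hC := (hasDerivAt_Gammaℂ_digamma hs).differentiableAt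
  have hp : DifferentiableAt ℂ (fun z : ℂ => (((discr K).natAbs : ℕ) : ℂ) ^ (z / 2)) s :=
    (differentiableAt_id.div_const 2).const_cpow (Or.inl hd)
  have hpow : logDeriv (fun z : ℂ => (((discr K).natAbs : ℕ) : ℂ) ^ (z / 2)) s =
      (discLog K / 2 : ℝ) := by
    rw [logDeriv_apply, (((hasDerivAt_id' s).div_const 2).const_cpow (Or.inl hd)).deriv,
      ← Complex.natCast_log, discLog]
    have : (((discr K).natAbs : ℕ) : ℂ) ^ (s / 2) ≠ 0 := cpow_ne_zero_iff.2 (Or.inl hd)
    push_cast
    field_simp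
  rw [show gamFac K = fun z : ℂ => (((discr K).natAbs : ℕ) : ℂ) ^ (z / 2) *
      (Gammaℝ z ^ nrRealPlaces K * Gammaℂ z ^ nrComplexPlaces K) from rfl,
    logDeriv_mul (f := fun z : ℂ => (((discr K).natAbs : ℕ) : ℂ) ^ (z / 2))
      (g := fun z => Gammaℝ z ^ nrRealPlaces K * Gammaℂ z ^ nrComplexPlaces K) s
      (cpow_ne_zero_iff.2 (Or.inl hd))
      (mul_ne_zero (pow_ne_zero _ (Gammaℝ_ne_zero_of_re_pos hs))
        (pow_ne_zero _ (Gammaℂ_ne_zero_pos hs))) hp ((hR.pow _).mul (hC.pow _)),
    logDeriv_mul (f := fun z => Gammaℝ z ^ nrRealPlaces K)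
      (g := fun z => Gammaℂ z ^ nrComplexPlaces K) s (pow_ne_zero _ (Gammaℝ_ne_zero_of_re_pos hs))
      (pow_ne_zero _ (Gammaℂ_ne_zero_pos hs)) (hR.pow _) (hC.pow _),
    logDeriv_fun_pow hR, logDeriv_fun_pow hC, logDeriv_Gammaℝ hs, logDeriv_Gammaℂ hs, hpow,
    archTerm]

/-- **`ξ'/ξ` on the half plane.** -/
theorem xiLog_formula {s : ℂ} (hs : 0 < s.re) (hE : cleared K s ≠ 0) :
    xiLog K s = s⁻¹ + deriv (cleared K) s / cleared K s + (discLog K / 2 : ℝ) + archTerm K s := by
  have h0 : s ≠ 0 := fun h => by simp [h] at hs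
  have hg : DifferentiableAt ℂ (gamFac K) s :=
    ((differentiableAt_id.div_const 2).const_cpow (Or.inl (discr_natAbs_ne_zero K))).mul
      (((hasDerivAt_Gammaℝ_digamma hs).differentiableAt.pow _).mul
        ((hasDerivAt_Gammaℂ_digamma hs).differentiableAt.pow _))
  have he : xiFun K =ᶠ[𝓝 s] fun z => z * cleared K z * gamFac K z := by
    filter_upwards [(isOpen_lt continuous_const continuous_re).mem_nhds hs] with z hz
    exact xi_eq_mul K hz
  rw [xiLog_eq_logDeriv, logDeriv_apply, he.deriv_eq, he.eq_of_nhds,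
    ← logDeriv_apply (fun z => z * cleared K z * gamFac K z),
    logDeriv_mul (f := fun z => z * cleared K z)
      (g := gamFac K) s (mul_ne_zero h0 hE) (gamFac_ne_zero K hs)
      (differentiableAt_id.mul (differentiable_cleared K s)) hg,
    logDeriv_mul (f := fun z : ℂ => z) (g := cleared K) s h0 hE differentiableAt_id
      (differentiable_cleared K s), logDeriv_gamFac K hs]
  simp [logDeriv_apply]
  ring

theorem logDeriv_cleared_right {s : ℂ} (hs : 1 < s.re) :
    deriv (cleared K) s / cleared K s =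
      (s - 1)⁻¹ + deriv (dedekindZeta K) s / dedekindZeta K s := by
  have h1 : s - 1 ≠ 0 := sub_ne_zero.2 fun h => by simp [h] at hs
  have hV : {z : ℂ | 1 < z.re} ∈ 𝓝 s :=
    (isOpen_lt continuous_const continuous_re).mem_nhds hs
  have hz : DifferentiableAt ℂ (dedekindZeta K) s := by
    refine ((differentiable_cleared K s).div (differentiableAt_id.sub_const 1) h1
      ).congr_of_eventuallyEq ?_
    filter_upwards [hV] with z hz
    have : z - 1 ≠ 0 := sub_ne_zero.2 fun h => by simp [h] at hz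
    show dedekindZeta K z = cleared K z / (z - 1)
    rw [cleared_spec K hz, mul_div_cancel_left₀ _ this]
  have he : cleared K =ᶠ[𝓝 s] fun z => (z - 1) * dedekindZeta K z := by
    filter_upwards [hV] with z hz
    exact cleared_spec K hz
  have hzn : dedekindZeta K s ≠ 0 := fun h => cleared_ne_zero_right K hs.le (by
    rw [cleared_spec K hs, h, mul_zero])
  rw [he.deriv_eq, he.eq_of_nhds, (((hasDerivAt_id' s).sub_const 1).fun_mul hz.hasDerivAt).deriv]
  field_simp

/-- **Stark's identity.** -/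
theorem stark_identity {s : ℂ} (hs : 1 < s.re) :
    HasSum (reTerm K s) (discLog K / 2 + (s⁻¹).re + ((s - 1)⁻¹).re + (archTerm K s).re +
      (deriv (dedekindZeta K) s / dedekindZeta K s).re) := by
  have h := hasSum_reTerm K (xi_ne_zero_right K hs.le)
  rw [xiLog_formula K (by linarith) (cleared_ne_zero_right K hs.le),
    logDeriv_cleared_right K hs] at h
  simp only [add_re, ofReal_re] at h
  convert h using 1
  ring

/-- The constant of Euler and Kronecker. -/
def ekConst : ℝ := (deriv (cleared K) 1 / cleared K 1).re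

/-- **It is the constant term of `ζ_K'/ζ_K` at `1`.** -/
theorem tendsto_ekConst : Tendsto (fun σ : ℝ => (deriv (dedekindZeta K) (σ : ℂ) /
    dedekindZeta K (σ : ℂ)).re + (σ - 1)⁻¹) (𝓝[>] 1) (𝓝 (ekConst K)) := by
  have hd := differentiable_cleared K
  have hc : ContinuousAt (fun σ : ℝ => (deriv (cleared K) σ / cleared K σ).re) 1 :=
    Complex.continuous_re.continuousAt.comp
      (ContinuousAt.comp' (g := fun z => deriv (cleared K) z / cleared K z)
        (((hd.analyticAt _).deriv.continuousAt).div (hd _).continuousAt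
          (cleared_ne_zero_right K (by simp))) Complex.continuous_ofReal.continuousAt)
  have h := hc.tendsto.mono_left (nhdsWithin_le_nhds (s := Ioi (1 : ℝ)))
  simp only [ofReal_one] at h
  refine h.congr' ?_
  filter_upwards [self_mem_nhdsWithin] with σ hσ
  rw [logDeriv_cleared_right K (by simpa using hσ), add_re, add_comm,
    show ((σ : ℂ) - 1)⁻¹ = (((σ - 1)⁻¹ : ℝ) : ℂ) by push_cast; rfl, ofReal_re]

theorem re_archTerm_one : (archTerm K 1).re =
    -(nrRealPlaces K * (eulerMascheroniConstant + Real.log (4 * π)) / 2 +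
      nrComplexPlaces K * (eulerMascheroniConstant + Real.log (2 * π))) := by
  have hR : logDeriv Gammaℝ 1 =
      ((-(eulerMascheroniConstant + Real.log (4 * π)) / 2 : ℝ) : ℂ) := by
    rw [logDeriv_apply, hasDerivAt_Gammaℝ_one.deriv, Gammaℝ_one, div_one]
    push_cast [Complex.ofReal_log (show (0 : ℝ) ≤ 4 * π by positivity)]
    rfl
  have hC : logDeriv Gammaℂ 1 =
      ((-(eulerMascheroniConstant + Real.log (2 * π)) : ℝ) : ℂ) := by
    rw [logDeriv_apply, hasDerivAt_Gammaℂ_one.deriv, Gammaℂ_one]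
    push_cast [Complex.ofReal_log (show (0 : ℝ) ≤ 2 * π by positivity)]
    have := ofReal_ne_zero.2 Real.pi_ne_zero
    field_simp
  rw [logDeriv_Gammaℝ (show 0 < (1 : ℂ).re by simp)] at hR
  rw [logDeriv_Gammaℂ (show 0 < (1 : ℂ).re by simp)] at hC
  rw [archTerm, hR, hC, add_re, ← ofReal_natCast, re_ofReal_mul, ← ofReal_natCast, re_ofReal_mul,
    ofReal_re, ofReal_re]
  ring

/-- **The closed form of `∑ m re (1 / ρ)`.** -/
theorem hasSum_re_inv_closed :
    HasSum (fun ρ : ℂ => (xiMult K ρ : ℝ) * (ρ⁻¹).re)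
      (1 + discLog K / 2 + ekConst K -
        (nrRealPlaces K * (eulerMascheroniConstant + Real.log (4 * π)) / 2 +
          nrComplexPlaces K * (eulerMascheroniConstant + Real.log (2 * π)))) := by
  have h := hasSum_re_inv K
  rw [xiLog_formula K (by simp) (cleared_ne_zero_right K (by simp)), add_re, add_re, add_re,
    inv_one, one_re, ofReal_re, re_archTerm_one] at h
  convert h using 1
  rw [ekConst]
  ring

end FA.DedekindHadamard

end
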