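import Fermat.Agent.DedekindHadamard.Stark

/-!
# Monotonicity of `|ξ_K|` and the Riemann hypothesis for `ζ_K`
-/

set_option autoImplicit false
set_option linter.style.haveILetI false

noncomputable section

universe u

open NumberField Complex Filter Topology Set
open FA.HeckeBS FA.DedekindZeroCount
open scoped Real Classical ComplexConjugate

namespace FA.DedekindHadamard

variable (K : Type u) [Field K] [NumberField K]

theorem exists_xi_zero : ∃ ρ, xiFun K ρ = 0 := by
  obtain ⟨ρ, h, h0, -⟩ := (infinite_stripZeros K).nonempty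
  exact ⟨ρ, by rw [xi_eq_mul K h0, h, mul_zero, zero_mul]⟩

/-- Zeros strictly to the left make `re (ξ'/ξ)` positive. -/
theorem re_xiLog_pos_of_left {s : ℂ} (h : ∀ ρ, xiFun K ρ = 0 → ρ.re < s.re) :
    0 < (xiLog K s).re := by
  have hsum := hasSum_reTerm K (s := s) fun h0 => lt_irrefl _ (h s h0)
  have hnn : ∀ ρ, 0 ≤ reTerm K s ρ := fun ρ => by
    rw [reTerm, inv_re]
    by_cases hm : xiMult K ρ = 0
    · simp [hm]
    · refine mul_nonneg (Nat.cast_nonneg _) (div_nonneg ?_ (normSq_nonneg _))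
      rw [sub_re]
      linarith [h ρ ((xiMult_ne_zero_iff K).1 hm)]
  obtain ⟨ρ₀, hρ₀⟩ := exists_xi_zero K
  have hm := Nat.pos_of_ne_zero ((xiMult_ne_zero_iff K).2 hρ₀)
  have hz := h ρ₀ hρ₀
  have hpos : 0 < reTerm K s ρ₀ := by
    rw [reTerm, inv_re]
    refine mul_pos (Nat.cast_pos.2 hm) (div_pos (by rw [sub_re]; linarith) (normSq_pos.2 ?_))
    exact sub_ne_zero.2 fun e => lt_irrefl _ (e ▸ hz)
  exact hpos.trans_le (le_hasSum hsum ρ₀ fun ρ _ => hnn ρ)

/-- Zeros strictly to the right make it negative. -/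
theorem re_xiLog_neg_of_right {s : ℂ} (h : ∀ ρ, xiFun K ρ = 0 → s.re < ρ.re) :
    (xiLog K s).re < 0 := by
  have h' := re_xiLog_pos_of_left K (s := 1 - s) fun ρ hρ => by
    have := h (1 - ρ) (by rw [xiFun_one_sub, hρ])
    simp only [sub_re, one_re] at this ⊢
    linarith
  rw [xiLog_one_sub, neg_re] at h'
  linarith

/-- The Riemann hypothesis for `ζ_K`. -/
def RHFor : Prop := ∀ ρ : ℂ, cleared K ρ = 0 → 0 < ρ.re → ρ.re < 1 → ρ.re = 1 / 2

/-- `|ξ_K|` increases to the right of `a`. -/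
def XiIncreasingFrom (a : ℝ) : Prop :=
  ∀ t : ℝ, StrictMonoOn (fun σ : ℝ => ‖xiFun K ((σ : ℂ) + t * I)‖) (Ici a)

theorem re_eq_half_of_rh (h : RHFor K) {ρ : ℂ} (hρ : xiFun K ρ = 0) : ρ.re = 1 / 2 := by
  obtain ⟨hE, h0, h1, -⟩ := (mem_stripZeros_iff K (T := |ρ.im|)).2 ⟨hρ, le_rfl⟩
  exact h ρ hE h0 h1

theorem re_xiLog_pos_of_rh (h : RHFor K) {s : ℂ} (hs : 1 / 2 < s.re) : 0 < (xiLog K s).re :=
  re_xiLog_pos_of_left K fun _ hρ => (re_eq_half_of_rh K h hρ).trans_lt hs

theorem strictMonoOn_norm_xiFun {a t : ℝ}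
    (h : ∀ σ : ℝ, a < σ → 0 < (xiLog K ((σ : ℂ) + t * I)).re) :
    StrictMonoOn (fun σ : ℝ => ‖xiFun K ((σ : ℂ) + t * I)‖) (Ici a) := by
  obtain ⟨g, hg⟩ : ∃ g : ℝ → ℝ, g = fun σ : ℝ => ‖xiFun K ((σ : ℂ) + t * I)‖ ^ 2 := ⟨_, rfl⟩
  have hmono : StrictMonoOn g (Ici a) := by
    have hd : ∀ σ : ℝ, HasDerivAt (fun σ : ℝ => xiFun K ((σ : ℂ) + t * I))
        (deriv (xiFun K) ((σ : ℂ) + t * I)) σ := fun σ => by
      have hin : HasDerivAt (fun σ : ℂ => σ + t * I) 1 σ := (hasDerivAt_id' _).add_const _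
      simpa using ((differentiable_xiFun K _).hasDerivAt.comp (σ : ℂ) hin).comp_ofReal
    have hgd : ∀ σ : ℝ, HasDerivAt g
        (2 * (deriv (xiFun K) ((σ : ℂ) + t * I) * conj (xiFun K ((σ : ℂ) + t * I))).re) σ :=
      fun σ => by
      have h2 := (hd σ).norm_sq
      rw [hg]
      refine h2.congr_deriv ?_
      rw [Complex.inner]
    refine strictMonoOn_of_hasDerivWithinAt_pos (convex_Ici _)
      (fun σ _ => (hgd σ).continuousAt.continuousWithinAt)
      (fun σ _ => (hgd σ).hasDerivWithinAt) fun σ hσ => ?_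
    rw [interior_Ici] at hσ
    have hp' := h σ hσ
    rw [xiLog, div_re, ← add_div] at hp'
    have hden : 0 < normSq (xiFun K ((σ : ℂ) + t * I)) :=
      normSq_pos.2 fun e => by rw [e] at hp'; simp at hp'
    have := mul_pos hp' hden
    rw [div_mul_cancel₀ _ hden.ne'] at this
    simp only [mul_re, conj_re, conj_im]
    linarith
  intro x hx y hy hxy
  have := hmono hx hy hxy
  rw [hg] at this
  exact lt_of_pow_lt_pow_left₀ 2 (norm_nonneg _) this

/-- **Unconditionally `|ξ_K|` increases on `re s ≥ 1`.** -/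
theorem xiIncreasing_one : XiIncreasingFrom K 1 :=
  fun _ => strictMonoOn_norm_xiFun K fun _ hσ => re_xiLog_pos_of_left K fun _ hρ =>
    ((xi_zero_strip K hρ).2).trans (by simpa using hσ)

theorem xiIncreasing_half_of_pos (h : ∀ s : ℂ, 1 / 2 < s.re → 0 < (xiLog K s).re) :
    XiIncreasingFrom K (1 / 2) :=
  fun _ => strictMonoOn_norm_xiFun K fun _ hσ => h _ (by simpa using hσ)

/-- Monotonicity already excludes zeros in `re s > 1/2`. -/
theorem no_right_zero_of_increasing (h : XiIncreasingFrom K (1 / 2)) {s : ℂ}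
    (hs : 1 / 2 < s.re) : xiFun K s ≠ 0 := fun h0 => by
  have h1 := h s.im (self_mem_Ici (a := (1 / 2 : ℝ))) (mem_Ici.2 hs.le) hs
  simp only [re_add_im, h0, norm_zero] at h1
  exact absurd h1 (not_lt.2 (norm_nonneg _))

theorem rh_of_increasing (h : XiIncreasingFrom K (1 / 2)) : RHFor K := fun ρ hρ h0 h1 => by
  have hx : xiFun K ρ = 0 := by rw [xi_eq_mul K h0, hρ, mul_zero, zero_mul]
  have key : ∀ z, xiFun K z = 0 → z.re ≤ 1 / 2 := fun z hz =>
    le_of_not_gt fun hlt => no_right_zero_of_increasing K h hlt hz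
  have h2 := key (1 - ρ) (by rw [xiFun_one_sub, hx])
  rw [sub_re, one_re] at h2
  linarith [key ρ hx]

/-- **The zeros of `ξ_K'` lie in the open strip.** -/
theorem deriv_xi_zero_strip {s : ℂ} (h : deriv (xiFun K) s = 0) : 0 < s.re ∧ s.re < 1 := by
  have hz : (xiLog K s).re = 0 := by rw [xiLog, h, zero_div, zero_re]
  constructor <;> by_contra hc
  · exact (re_xiLog_neg_of_right K fun ρ hρ =>
      (not_lt.1 hc).trans_lt (xi_zero_strip K hρ).1).ne hz
  · exact (re_xiLog_pos_of_left K fun ρ hρ =>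
      ((xi_zero_strip K hρ).2).trans_le (not_lt.1 hc)).ne' hz

/-- **Under the Riemann hypothesis they lie on the line.** -/
theorem deriv_xi_zero_line (hG : RHFor K) {s : ℂ} (h : deriv (xiFun K) s = 0) :
    s.re = 1 / 2 := by
  have hz : (xiLog K s).re = 0 := by rw [xiLog, h, zero_div, zero_re]
  rcases lt_trichotomy s.re (1 / 2) with hc | hc | hc
  · exact absurd hz (re_xiLog_neg_of_right K fun ρ hρ =>
      hc.trans_le (re_eq_half_of_rh K hG hρ).ge).ne
  · exact hc
  · exact absurd hz (re_xiLog_pos_of_rh K hG hc).ne'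

/-- `∑ m re (1/ρ)` is positive. -/
theorem xiLog_one_pos : 0 < (xiLog K 1).re :=
  re_xiLog_pos_of_left K fun _ hρ => (xi_zero_strip K hρ).2.trans_eq one_re.symm

open Real (eulerMascheroniConstant) in
/-- **Ihara's lower bound for the constant of Euler and Kronecker.** -/
theorem ekConst_gt : (InfinitePlace.nrRealPlaces K : ℝ) *
      (eulerMascheroniConstant + Real.log (4 * π)) / 2 +
        InfinitePlace.nrComplexPlaces K * (eulerMascheroniConstant + Real.log (2 * π)) -
      1 - discLog K / 2 < ekConst K := by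
  have h := (hasSum_re_inv K).unique (hasSum_re_inv_closed K)
  linarith [xiLog_one_pos K, h]

end FA.DedekindHadamard

end
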