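import Fermat.Agent.DeuringHeilbronn.Disc
import Fermat.Agent.Levinson.Factor
import Mathlib.Analysis.Complex.Schwarz
import Mathlib.Analysis.Normed.Group.Tannery

/-!
# The partial fractions of `f'/f` for an entire function of genus one

If `f` is entire with `f 0 ≠ 0` and `‖f z‖ ≤ exp (B (|z| + 1) log (|z| + 3)) ‖f 0‖`, then
`∑ m / |ρ| ^ 2` over its zeros converges and `f'/f s - f'/f 0 = ∑ m (1 / (s - ρ) + 1 / ρ)`: the
zeros within `R` are divided out and the remaining logarithmic derivative varies by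
`O (|s| log R / R)` on a fixed disc.
-/

set_option autoImplicit false

noncomputable section

namespace FA.DedekindHadamard

open Complex Metric Filter Set Topology
open FA.DeuringHeilbronn (Grows Divides rimB)
open FA.RiemannMangoldt (rootProd rootProd_ne_zero hasDerivAt_rootProd)

variable {f : ℂ → ℂ} {B : ℝ}

/-- The order of vanishing. -/
def fMult (f : ℂ → ℂ) (ρ : ℂ) : ℕ := analyticOrderNatAt f ρ

theorem order_ne_top (hd : Differentiable ℂ f) (h0 : f 0 ≠ 0) (z : ℂ) :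
    analyticOrderAt f z ≠ ⊤ := fun h =>
  h0 ((analyticOnNhd_univ_iff_differentiable.2 hd).eqOn_zero_of_preconnected_of_eventuallyEq_zero
    isPreconnected_univ (mem_univ z) (analyticOrderAt_eq_top.1 h) (mem_univ 0))

theorem fMult_ne_zero_iff (hd : Differentiable ℂ f) (h0 : f 0 ≠ 0) {z : ℂ} :
    fMult f z ≠ 0 ↔ f z = 0 := by
  refine ⟨fun h => apply_eq_zero_of_analyticOrderNatAt_ne_zero h, fun h hm => ?_⟩
  rw [fMult, analyticOrderNatAt] at hm
  rcases ENat.toNat_eq_zero.1 hm with hm | hm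
  · exact (hd.analyticAt z).analyticOrderAt_ne_zero.2 h hm
  · exact order_ne_top hd h0 z hm

theorem fMult_eq_zero {z : ℂ} (h : f z ≠ 0) : fMult f z = 0 := by
  by_contra hm
  exact h (apply_eq_zero_of_analyticOrderNatAt_ne_zero hm)

/-- The zeros within `R` divided out. -/
theorem exists_disc_factor (hd : Differentiable ℂ f) (h0 : f 0 ≠ 0) {R : ℝ} (hR : 0 ≤ R) :
    ∃ (Z : Multiset ℂ) (g : ℂ → ℂ), Divides f g Z ∧ (∀ ρ ∈ Z, ‖ρ‖ ≤ R) ∧
      (∀ z, ‖z‖ ≤ R → g z ≠ 0) ∧ ∀ z, ‖z‖ ≤ R → fMult f z = Z.count z := by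
  obtain ⟨Z, g, hg, he, hZ, hne, hc⟩ := FA.Levinson.exists_compact_factor isOpen_univ
    (isCompact_closedBall (0 : ℂ) R) (subset_univ _) hd.differentiableOn
    fun z _ => order_ne_top hd h0 z
  exact ⟨Z, g, ⟨differentiableOn_univ.1 hg, hne 0 (mem_closedBall_self hR), fun z => he z⟩,
    fun ρ hρ => mem_closedBall_zero_iff.1 (hZ ρ hρ),
    fun z hz => hne z (mem_closedBall_zero_iff.2 hz),
    fun z hz => hc z (mem_closedBall_zero_iff.2 hz)⟩

theorem finite_zeros (hd : Differentiable ℂ f) (h0 : f 0 ≠ 0) (R : ℝ) :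
    {ρ : ℂ | fMult f ρ ≠ 0 ∧ ‖ρ‖ ≤ R}.Finite :=
  (FA.Levinson.finite_zeros_compact isOpen_univ (isCompact_closedBall (0 : ℂ) R) (subset_univ _)
    hd.differentiableOn fun z _ => order_ne_top hd h0 z).subset
      fun _ hρ => ⟨mem_closedBall_zero_iff.2 hρ.2, (fMult_ne_zero_iff hd h0).1 hρ.1⟩

/-- `m / |ρ| ^ 2` beyond the unit disc. -/
def outerWeight (f : ℂ → ℂ) (ρ : ℂ) : ℝ :=
  if 1 < ‖ρ‖ then (fMult f ρ : ℝ) * (‖ρ‖ ^ 2)⁻¹ else 0

theorem outerWeight_nonneg (f : ℂ → ℂ) (ρ : ℂ) : 0 ≤ outerWeight f ρ := by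
  rw [outerWeight]
  split_ifs <;> positivity

theorem sum_outerWeight_le (hd : Differentiable ℂ f) (h0 : f 0 ≠ 0) (hB : 0 ≤ B)
    (hf : Grows f B) (F : Finset ℂ) : ∑ ρ ∈ F, outerWeight f ρ ≤ 128 * B := by
  classical
  obtain ⟨R, hR⟩ : ∃ R, R = ∑ ρ ∈ F, ‖ρ‖ := ⟨_, rfl⟩
  have hR0 : 0 ≤ R := hR ▸ Finset.sum_nonneg fun _ _ => norm_nonneg _
  obtain ⟨Z, g, hZ, -, -, hc⟩ := exists_disc_factor hd h0 hR0
  obtain ⟨U, hU⟩ := Multiset.le_iff_exists_add.1
    (Multiset.filter_le (fun ρ : ℂ => 1 < ‖ρ‖) Z)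
  have h := (Divides.of_add (hU ▸ hZ) h0).sum_inv_sq_le h0 hB hf fun ρ hρ =>
    (Multiset.mem_filter.1 hρ).2
  refine le_trans ?_ h
  rw [Finset.sum_multiset_map_count]
  calc ∑ ρ ∈ F, outerWeight f ρ = ∑ ρ ∈ F with ρ ∈ (Z.filter fun ρ => 1 < ‖ρ‖).toFinset,
        outerWeight f ρ := by
        refine (Finset.sum_filter_of_ne fun ρ hρ hne => ?_).symm
        simp only [outerWeight, ne_eq, ite_eq_right_iff, mul_eq_zero, Nat.cast_eq_zero,
          not_forall, not_or] at hne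
        obtain ⟨h1, hm, -⟩ := hne
        rw [Multiset.mem_toFinset, Multiset.mem_filter, ← Multiset.count_ne_zero,
          ← hc ρ (hR ▸ Finset.single_le_sum (f := fun x : ℂ => ‖x‖) (fun x _ => norm_nonneg x) hρ)]
        exact ⟨hm, h1⟩
    _ = ∑ ρ ∈ F with ρ ∈ (Z.filter fun ρ => 1 < ‖ρ‖).toFinset,
        (Z.filter fun ρ => 1 < ‖ρ‖).count ρ • (‖ρ‖ ^ 2)⁻¹ := by
        refine Finset.sum_congr rfl fun ρ hρ => ?_
        obtain ⟨hF, hmem⟩ := Finset.mem_filter.1 hρ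
        have h1 := (Multiset.mem_filter.1 (Multiset.mem_toFinset.1 hmem)).2
        rw [outerWeight, if_pos h1, nsmul_eq_mul,
          Multiset.count_filter_of_pos (p := fun ρ : ℂ => 1 < ‖ρ‖) h1,
          hc ρ (hR ▸ Finset.single_le_sum (f := fun x : ℂ => ‖x‖) (fun x _ => norm_nonneg x) hF)]
    _ ≤ _ := Finset.sum_le_sum_of_subset_of_nonneg (fun ρ hρ => (Finset.mem_filter.1 hρ).2)
        fun ρ _ _ => by positivity

theorem summable_outerWeight (hd : Differentiable ℂ f) (h0 : f 0 ≠ 0) (hB : 0 ≤ B)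
    (hf : Grows f B) : Summable (outerWeight f) :=
  summable_of_sum_le (outerWeight_nonneg f) (sum_outerWeight_le hd h0 hB hf)

/-- **`∑ m / |ρ| ^ 2` converges.** -/
theorem summable_inv_sq (hd : Differentiable ℂ f) (h0 : f 0 ≠ 0) (hB : 0 ≤ B) (hf : Grows f B) :
    Summable fun ρ : ℂ => (fMult f ρ : ℝ) * (‖ρ‖ ^ 2)⁻¹ := by
  refine Summable.of_norm_bounded_eventually (summable_outerWeight hd h0 hB hf) ?_
  rw [Filter.eventually_cofinite]
  refine (finite_zeros hd h0 1).subset fun ρ hρ => ?_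
  simp only [mem_ofPred_eq, Real.norm_eq_abs] at hρ ⊢
  by_cases hm : fMult f ρ = 0
  · exact absurd (by simp [hm, outerWeight]) hρ
  refine ⟨hm, not_lt.1 fun h => hρ ?_⟩
  rw [outerWeight, if_pos h, abs_of_nonneg (by positivity)]

/-- `m (1 / (s - ρ) + 1 / ρ)`. -/
def fracPart (f : ℂ → ℂ) (s ρ : ℂ) : ℂ := (fMult f ρ : ℂ) * ((s - ρ)⁻¹ + ρ⁻¹)

theorem norm_pair_le {s ρ : ℂ} (h : 2 * ‖s‖ < ‖ρ‖) :
    ‖(s - ρ)⁻¹ + ρ⁻¹‖ ≤ 2 * ‖s‖ * (‖ρ‖ ^ 2)⁻¹ := by
  have hs := norm_nonneg s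
  have hn2 : ‖ρ‖ / 2 ≤ ‖s - ρ‖ := by
    have := norm_sub_norm_le ρ s
    rw [norm_sub_rev] at this
    linarith
  have hρ0 : ρ ≠ 0 := norm_pos_iff.1 (by linarith)
  have hsρ : s - ρ ≠ 0 := norm_pos_iff.1 (by linarith)
  rw [show (s - ρ)⁻¹ + ρ⁻¹ = s / ((s - ρ) * ρ) by field_simp; ring, norm_div, norm_mul]
  calc ‖s‖ / (‖s - ρ‖ * ‖ρ‖) ≤ ‖s‖ / (‖ρ‖ / 2 * ‖ρ‖) :=
        div_le_div_of_nonneg_left hs (mul_pos (by linarith) (by linarith))
          (mul_le_mul_of_nonneg_right hn2 (norm_nonneg _))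
    _ = _ := by field_simp

theorem summable_norm_fracPart (hd : Differentiable ℂ f) (h0 : f 0 ≠ 0) (hB : 0 ≤ B)
    (hf : Grows f B) (s : ℂ) : Summable fun ρ => ‖fracPart f s ρ‖ := by
  refine Summable.of_norm_bounded_eventually
    ((summable_inv_sq hd h0 hB hf).mul_left (2 * ‖s‖)) ?_
  rw [Filter.eventually_cofinite]
  refine (finite_zeros hd h0 (2 * ‖s‖)).subset fun ρ hρ => ?_
  simp only [mem_ofPred_eq, norm_norm] at hρ ⊢
  by_cases hm : fMult f ρ = 0
  · exact absurd (by simp [fracPart, hm]) hρ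
  refine ⟨hm, not_lt.1 fun hgt => hρ ?_⟩
  rw [fracPart, norm_mul, Complex.norm_natCast]
  exact (mul_le_mul_of_nonneg_left (norm_pair_le hgt) (Nat.cast_nonneg _)).trans
    (le_of_eq (by ring))

/-- The part without zeros varies little. -/
theorem norm_logDeriv_sub_le {g : ℂ → ℂ} (hg : Differentiable ℂ g) {R M : ℝ} (hR : 0 < R)
    (hM : 0 < M) (hne : ∀ z : ℂ, ‖z‖ ≤ R → g z ≠ 0)
    (hb : ∀ z : ℂ, ‖z‖ ≤ R → ‖g z‖ ≤ Real.exp M * ‖g 0‖) {s : ℂ} (hs : ‖s‖ < R / 4) :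
    ‖logDeriv g s - logDeriv g 0‖ ≤ 64 * M * ‖s‖ / R ^ 2 := by
  have hin : ∀ z ∈ ball (0 : ℂ) R, ‖z‖ ≤ R := fun z hz => (mem_ball_zero_iff.1 hz).le
  obtain ⟨h, hder, hh⟩ := FA.DLVP.norm_log_le hR hg.differentiableOn
    (fun z hz => hne z (hin z hz)) (Real.one_lt_exp_iff.2 hM) fun z hz => hb z (hin z hz)
  rw [Real.log_exp] at hh
  have hval : ∀ z ∈ ball (0 : ℂ) R, logDeriv g z = deriv h z := fun z hz => by
    rw [(hder z hz).deriv, logDeriv_apply]
  have hbd : ∀ z ∈ ball (0 : ℂ) (R / 4), ‖logDeriv g z‖ ≤ 8 * M / R := fun z hz => by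
    rw [mem_ball_zero_iff] at hz
    have hsub : closedBall z (R / 4) ⊆ ball (0 : ℂ) R := fun w hw => by
      rw [mem_closedBall_iff_norm] at hw
      rw [mem_ball_zero_iff]
      linarith [norm_sub_norm_le w z]
    rw [hval z (mem_ball_zero_iff.2 (by linarith))]
    refine (Complex.norm_deriv_le_of_forall_mem_sphere_norm_le (R := R / 4) (C := 2 * M)
      (by linarith) ?_ fun w hw => ?_).trans (le_of_eq (by ring))
    · refine DifferentiableOn.diffContOnCl ?_
      rw [closure_ball _ (by linarith : R / 4 ≠ 0)]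
      exact fun w hw => (hder w (hsub hw)).differentiableAt.differentiableWithinAt
    · have hwR := hsub (sphere_subset_closedBall hw)
      rw [mem_sphere_iff_norm] at hw
      have hw2 : ‖w‖ < R / 2 := by linarith [norm_sub_norm_le w z]
      refine (hh w hwR).trans ?_
      rw [div_le_iff₀ (by linarith)]
      exact mul_le_mul_of_nonneg_left (by linarith) (by linarith)
  have hd : DifferentiableOn ℂ (logDeriv g) (ball (0 : ℂ) (R / 4)) := fun z hz =>
    (((hg.analyticAt z).deriv.div (hg.analyticAt z) (hne z (by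
      linarith [mem_ball_zero_iff.1 hz]))).differentiableAt).differentiableWithinAt
  have h := Complex.dist_le_div_mul_dist_of_mapsTo_ball hd (R₂ := 16 * M / R)
    (fun z hz => by
      rw [mem_closedBall_iff_norm]
      refine (norm_sub_le _ _).trans ((add_le_add (hbd z hz)
        (hbd 0 (mem_ball_self (by linarith)))).trans (le_of_eq (by ring)))) (z := s)
    (mem_ball_zero_iff.2 hs)
  rw [dist_eq_norm, dist_zero_right] at h
  exact h.trans (le_of_eq (by field_simp; ring))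

/-- `f'/f` with the zeros split off. -/
theorem logDeriv_split {g : ℂ → ℂ} {Z : Multiset ℂ} (hZ : Divides f g Z) {u : ℂ}
    (hu : ∀ ρ ∈ Z, u ≠ ρ) (hgu : g u ≠ 0) :
    logDeriv f u = (Z.map fun ρ => (u - ρ)⁻¹).sum + logDeriv g u := by
  rw [show f = fun w => rootProd Z w * g w from funext hZ.eq, logDeriv_apply, logDeriv_apply,
    ((hasDerivAt_rootProd hu).fun_mul (hZ.diff u).hasDerivAt).deriv]
  have n1 := rootProd_ne_zero hu
  field_simp

/-- The error when the zeros within `R` are kept. -/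
theorem norm_partial_sub_le (hd : Differentiable ℂ f) (h0 : f 0 ≠ 0) (hB : 0 < B)
    (hf : Grows f B) {s : ℂ} (hs : f s ≠ 0) {R : ℝ} (hR : 1 ≤ R) (hsR : ‖s‖ < R / 4) :
    ‖(logDeriv f s - logDeriv f 0) - ∑ ρ ∈ (finite_zeros hd h0 R).toFinset, fracPart f s ρ‖ ≤
      64 * rimB B R * ‖s‖ / R ^ 2 := by
  classical
  obtain ⟨Z, g, hZ, hZR, hne, hc⟩ := exists_disc_factor hd h0 (zero_le_one.trans hR)
  have hzero : ∀ ρ ∈ Z, f ρ = 0 := fun ρ hρ => hZ.mem_zero hρ
  have hsum : ∑ ρ ∈ (finite_zeros hd h0 R).toFinset, fracPart f s ρ =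
      (Z.map fun ρ => (s - ρ)⁻¹).sum - (Z.map fun ρ => (0 - ρ)⁻¹).sum := by
    rw [← Multiset.sum_map_sub, Finset.sum_multiset_map_count]
    refine Finset.sum_congr ?_ fun ρ hρ => ?_
    · ext ρ
      rw [Set.Finite.mem_toFinset, mem_ofPred_eq, Multiset.mem_toFinset]
      refine ⟨fun h => Multiset.count_ne_zero.1 (hc ρ h.2 ▸ h.1), fun h => ⟨?_, hZR ρ h⟩⟩
      exact hc ρ (hZR ρ h) ▸ Multiset.count_ne_zero.2 h
    · rw [Multiset.mem_toFinset] at hρ
      rw [fracPart, hc ρ (hZR ρ hρ), nsmul_eq_mul, zero_sub, inv_neg, sub_neg_eq_add]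
  rw [hsum, logDeriv_split hZ (fun ρ hρ e => hs ((congrArg f e).trans (hzero ρ hρ)))
      (hne s (by linarith)),
    logDeriv_split hZ (fun ρ hρ e => h0 ((congrArg f e).trans (hzero ρ hρ)))
      (hne 0 (by simp; linarith))]
  rw [add_sub_add_comm, add_sub_cancel_left]
  have hM : 0 < rimB B R := by
    rw [rimB]
    have : 0 < Real.log (3 * R + 3) := Real.log_pos (by linarith)
    positivity
  have hgb : ∀ z : ℂ, ‖z‖ ≤ R → ‖g z‖ ≤ Real.exp (rimB B R) * ‖g 0‖ := fun z hz =>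
    (le_mul_of_one_le_left (norm_nonneg _) (one_le_pow₀ one_le_two)).trans
      (hZ.two_pow_mul_le (by linarith) hZR hf.on_rim (mem_closedBall_zero_iff.2 (by linarith)))
  have := norm_logDeriv_sub_le hZ.diff (by linarith) hM hne hgb hsR
  exact this.trans (le_of_eq (by ring))

theorem tendsto_rimB_div (B : ℝ) :
    Tendsto (fun R : ℝ => rimB B R / R ^ 2) atTop (𝓝 0) := by
  refine squeeze_zero_norm' (a := fun R : ℝ => 32 * |B| * R ^ (-(1 / 2) : ℝ)) ?_ ?_
  · filter_upwards [eventually_ge_atTop 1] with R hR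
    have hl : Real.log (3 * R + 3) ≤ 6 * √R := by
      refine (FA.DeuringHeilbronn.log_le_two_sqrt (by linarith)).trans ?_
      rw [show 6 * √R = 2 * (3 * √R) by ring]
      refine mul_le_mul_of_nonneg_left ?_ zero_le_two
      rw [Real.sqrt_le_left (by positivity), mul_pow, Real.sq_sqrt (by linarith)]
      linarith
    have hl0 : 0 ≤ Real.log (3 * R + 3) := Real.log_nonneg (by linarith)
    rw [Real.norm_eq_abs, abs_div, rimB, abs_mul, abs_mul, abs_of_nonneg hl0,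
      abs_of_nonneg (show 0 ≤ 3 * R + 1 by linarith), abs_of_nonneg (sq_nonneg R),
      div_le_iff₀ (by positivity), Real.rpow_neg (by linarith), ← Real.sqrt_eq_rpow]
    calc |B| * ((3 * R + 1) * Real.log (3 * R + 3)) ≤ |B| * (4 * R * (6 * √R)) :=
          mul_le_mul_of_nonneg_left (mul_le_mul (by linarith) hl hl0 (by linarith)) (abs_nonneg B)
      _ ≤ |B| * (32 * R * √R) := mul_le_mul_of_nonneg_left
          (by nlinarith [mul_nonneg (show 0 ≤ R by linarith) (Real.sqrt_nonneg R)]) (abs_nonneg B)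
      _ = 32 * |B| * (√R)⁻¹ * R ^ 2 := by
          have hs : √R * √R = R := Real.mul_self_sqrt (by linarith)
          field_simp
          rw [Real.sq_sqrt (by linarith)]
  · simpa using (tendsto_rpow_neg_atTop (show (0 : ℝ) < 1 / 2 by norm_num)).const_mul (32 * |B|)

/-- **The partial fractions.** -/
theorem hasSum_fracPart (hd : Differentiable ℂ f) (h0 : f 0 ≠ 0) (hB : 0 < B) (hf : Grows f B)
    {s : ℂ} (hs : f s ≠ 0) :
    HasSum (fracPart f s) (logDeriv f s - logDeriv f 0) := by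
  classical
  have hsum := summable_norm_fracPart hd h0 hB.le hf s
  have hlim : Tendsto (fun n : ℕ => ∑ ρ ∈ (finite_zeros hd h0 n).toFinset, fracPart f s ρ) atTop
      (𝓝 (∑' ρ, fracPart f s ρ)) := by
    have h := tendsto_tsum_of_dominated_convergence (𝓕 := atTop)
      (f := fun (n : ℕ) ρ => if ‖ρ‖ ≤ n then fracPart f s ρ else 0) (g := fracPart f s)
      hsum (fun ρ => tendsto_const_nhds.congr' ?_) (Eventually.of_forall fun n ρ => ?_)
    · refine h.congr fun n => ?_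
      rw [tsum_eq_sum (s := (finite_zeros hd h0 n).toFinset) fun ρ hρ => ?_]
      · exact Finset.sum_congr rfl fun ρ hρ => if_pos ((Set.Finite.mem_toFinset _).1 hρ).2
      · by_cases hn : ‖ρ‖ ≤ (n : ℝ)
        · have hm : fMult f ρ = 0 := by
            by_contra hm
            exact hρ ((Set.Finite.mem_toFinset _).2 ⟨hm, hn⟩)
          simp [fracPart, hm]
        · simp [hn]
    · filter_upwards [eventually_ge_atTop ⌈‖ρ‖⌉₊] with n hn
      rw [if_pos (Nat.ceil_le.1 hn)]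
    · show ‖if ‖ρ‖ ≤ (n : ℝ) then fracPart f s ρ else 0‖ ≤ _
      split_ifs <;> simp
  have herr : Tendsto (fun n : ℕ => (logDeriv f s - logDeriv f 0) -
      ∑ ρ ∈ (finite_zeros hd h0 n).toFinset, fracPart f s ρ) atTop (𝓝 0) := by
    refine squeeze_zero_norm' (a := fun n : ℕ => 64 * ‖s‖ * (rimB B n / (n : ℝ) ^ 2)) ?_ ?_
    · filter_upwards [eventually_ge_atTop (⌈4 * ‖s‖⌉₊ + 1)] with n hn
      have h1 : (1 : ℝ) ≤ n := Nat.one_le_cast.2 (le_trans (Nat.le_add_left _ _) hn)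
      have h4 : 4 * ‖s‖ < (n : ℝ) := lt_of_le_of_lt (Nat.le_ceil _) (Nat.cast_lt.2 hn)
      exact (norm_partial_sub_le hd h0 hB hf hs h1 (by linarith)).trans (le_of_eq (by ring))
    · simpa using ((tendsto_rimB_div B).comp tendsto_natCast_atTop_atTop).const_mul (64 * ‖s‖)
  have h := tendsto_nhds_unique herr (hlim.const_sub _)
  rw [sub_eq_zero.1 h.symm]
  exact hsum.of_norm.hasSum

end FA.DedekindHadamard

end
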