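import Fermat.Agent.DedekindHadamard.Generic
import Fermat.Agent.DirichletHadamard.Product

/-!
# Hadamard's product in genus one

`f s = f 0 · exp (f'/f 0 · s) ∏ ((1 - s/ρ) exp (s/ρ)) ^ m` for an entire `f` as in
`DedekindHadamard.Generic`: both sides are entire, agree at `0` and have the same logarithmic
derivative near `0`.
-/

set_option autoImplicit false

noncomputable section

namespace FA.DedekindHadamard

open Complex Filter Metric Set Topology
open FA.DeuringHeilbronn (Grows)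

variable {f : ℂ → ℂ} {B : ℝ}

/-- The zeros. -/
abbrev FZero (f : ℂ → ℂ) : Type := {ρ : ℂ // fMult f ρ ≠ 0}

/-- `((1 - s/ρ) exp (s/ρ)) ^ m`. -/
def canFactor (f : ℂ → ℂ) (ρ : FZero f) (s : ℂ) : ℂ :=
  ((1 - s / (ρ : ℂ)) * cexp (s / (ρ : ℂ))) ^ fMult f (ρ : ℂ)

theorem fzero_ne_zero (hd : Differentiable ℂ f) (h0 : f 0 ≠ 0) (ρ : FZero f) : (ρ : ℂ) ≠ 0 :=
  fun h => h0 (h ▸ (fMult_ne_zero_iff hd h0).1 ρ.2)

/-- The majorant on the ball of radius `R`. -/
def canMajorant (f : ℂ → ℂ) (R : ℝ) (ρ : FZero f) : ℝ :=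
  6 * R ^ 2 * ((fMult f (ρ : ℂ) : ℝ) * (‖(ρ : ℂ)‖ ^ 2)⁻¹)

theorem summable_canMajorant (hd : Differentiable ℂ f) (h0 : f 0 ≠ 0) (hB : 0 ≤ B)
    (hf : Grows f B) (R : ℝ) : Summable (canMajorant f R) :=
  ((summable_inv_sq hd h0 hB hf).comp_injective Subtype.val_injective).mul_left _

theorem eventually_norm_canFactor_le (hd : Differentiable ℂ f) (h0 : f 0 ≠ 0) (hB : 0 ≤ B)
    (hf : Grows f B) (R : ℝ) :
    ∀ᶠ ρ in cofinite, ∀ s ∈ ball (0 : ℂ) R, ‖canFactor f ρ s - 1‖ ≤ canMajorant f R ρ := by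
  have h1 : ∀ᶠ ρ : FZero f in cofinite, |R| + 1 < ‖(ρ : ℂ)‖ := by
    rw [Filter.eventually_cofinite]
    refine ((finite_zeros hd h0 (|R| + 1)).preimage Subtype.val_injective.injOn).subset
      fun ρ hρ => ?_
    exact ⟨ρ.2, not_lt.1 hρ⟩
  filter_upwards [h1, (summable_canMajorant hd h0 hB hf R).tendsto_cofinite_zero.eventually_le_const
    one_half_pos] with ρ hbig hsmall s hs
  rw [mem_ball_zero_iff] at hs
  obtain ⟨z, hz⟩ : ∃ z : ℂ, z = s / (ρ : ℂ) := ⟨_, rfl⟩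
  have hR : 0 ≤ R := (norm_nonneg s).trans hs.le
  have hρ : 0 < ‖(ρ : ℂ)‖ := by linarith [abs_nonneg R]
  have hzn : ‖z‖ ≤ R / ‖(ρ : ℂ)‖ := by
    rw [hz, norm_div]
    exact div_le_div_of_nonneg_right hs.le hρ.le
  have hz1 : ‖z‖ ≤ 1 := hzn.trans (by
    rw [div_le_one hρ]
    linarith [le_abs_self R])
  obtain ⟨x, hx⟩ : ∃ x : ℂ, x = (1 - z) * cexp z - 1 := ⟨_, rfl⟩
  have hm : (fMult f (ρ : ℂ) : ℝ) * ‖x‖ ≤ canMajorant f R ρ / 2 := by
    refine (mul_le_mul_of_nonneg_left ((hx ▸ FA.DirichletHadamard.norm_weier_sub_one_le hz1).trans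
      (mul_le_mul_of_nonneg_left (pow_le_pow_left₀ (norm_nonneg _) hzn 2) (by norm_num)))
      (Nat.cast_nonneg _)).trans (le_of_eq ?_)
    rw [canMajorant, div_pow]
    ring
  have h2 := FA.XiProduct.norm_pow_sub_one_le (hm.trans (by linarith) :
    (fMult f (ρ : ℂ) : ℝ) * ‖x‖ ≤ 1 / 2)
  rw [canFactor, ← hz, show (1 - z) * cexp z = 1 + x by rw [hx]; ring]
  linarith

theorem differentiable_canFactor (ρ : FZero f) : Differentiable ℂ (canFactor f ρ) := by
  unfold canFactor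
  fun_prop

theorem hasProdLocallyUniformlyOn_canFactor (hd : Differentiable ℂ f) (h0 : f 0 ≠ 0)
    (hB : 0 ≤ B) (hf : Grows f B) (R : ℝ) :
    HasProdLocallyUniformlyOn (canFactor f) (fun s => ∏' ρ, canFactor f ρ s) (ball 0 R) := by
  have h := Summable.hasProdLocallyUniformlyOn_one_add (f := fun ρ s => canFactor f ρ s - 1)
    (isOpen_ball : IsOpen (ball (0 : ℂ) R)) (summable_canMajorant hd h0 hB hf R)
    (eventually_norm_canFactor_le hd h0 hB hf R)
    fun ρ => ((differentiable_canFactor ρ).continuous.sub continuous_const).continuousOn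
  simpa using h

theorem differentiable_canProd (hd : Differentiable ℂ f) (h0 : f 0 ≠ 0) (hB : 0 ≤ B)
    (hf : Grows f B) : Differentiable ℂ fun s => ∏' ρ, canFactor f ρ s := fun s => by
  have h := hasProdLocallyUniformlyOn_canFactor hd h0 hB hf (‖s‖ + 1)
  rw [hasProdLocallyUniformlyOn_iff_tendstoLocallyUniformlyOn] at h
  exact (h.differentiableOn (.of_forall fun F => by
    simpa [Finset.prod_fn] using (Differentiable.fun_finsetProd fun ρ _ =>
      differentiable_canFactor ρ).differentiableOn) isOpen_ball).differentiableAt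
      (isOpen_ball.mem_nhds (mem_ball_zero_iff.2 (lt_add_one _)))

theorem logDeriv_canFactor (hd : Differentiable ℂ f) (h0 : f 0 ≠ 0) {s : ℂ} (hs : f s ≠ 0)
    (ρ : FZero f) :
    canFactor f ρ s ≠ 0 ∧ logDeriv (canFactor f ρ) s = fracPart f s ρ := by
  have hρ0 := fzero_ne_zero hd h0 ρ
  have hsρ : s - (ρ : ℂ) ≠ 0 :=
    sub_ne_zero.2 fun e => hs (e ▸ (fMult_ne_zero_iff hd h0).1 ρ.2)
  have hρs : (ρ : ℂ) - s ≠ 0 := sub_ne_zero.2 (sub_ne_zero.1 hsρ).symm
  have h1 : 1 - s / (ρ : ℂ) ≠ 0 := by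
    rw [one_sub_div hρ0]
    exact div_ne_zero hρs hρ0
  have hd' := (((hasDerivAt_id' s).div_const (ρ : ℂ)).const_sub 1).fun_mul
    ((hasDerivAt_id' s).div_const (ρ : ℂ)).cexp
  refine ⟨by rw [canFactor]; exact pow_ne_zero _ (mul_ne_zero h1 (Complex.exp_ne_zero _)), ?_⟩
  unfold canFactor
  rw [logDeriv_fun_pow hd'.differentiableAt, logDeriv_apply, hd'.deriv, fracPart]
  congr 1
  rw [one_sub_div hρ0]
  field_simp
  ring

theorem hasSum_logDeriv_canFactor (hd : Differentiable ℂ f) (h0 : f 0 ≠ 0) (hB : 0 < B)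
    (hf : Grows f B) {s : ℂ} (hs : f s ≠ 0) :
    HasSum (fun ρ : FZero f => logDeriv (canFactor f ρ) s) (logDeriv f s - logDeriv f 0) := by
  refine ((hasSum_subtype_iff_of_support_subset (f := fracPart f s)
    (s := {ρ | fMult f ρ ≠ 0}) fun ρ hρ => ?_).2 (hasSum_fracPart hd h0 hB hf hs)).congr_fun
      fun ρ => (logDeriv_canFactor hd h0 hs ρ).2
  simp only [Function.mem_support] at hρ
  intro h
  exact hρ (by simp [fracPart, h])

/-- **Hadamard's product.** -/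
theorem eq_canProd (hd : Differentiable ℂ f) (h0 : f 0 ≠ 0) (hB : 0 < B) (hf : Grows f B)
    (s : ℂ) : f s = f 0 * cexp (logDeriv f 0 * s) * ∏' ρ, canFactor f ρ s := by
  obtain ⟨P, hP⟩ : ∃ P : ℂ → ℂ, P = fun s => ∏' ρ, canFactor f ρ s := ⟨_, rfl⟩
  have hPd : Differentiable ℂ P := hP ▸ differentiable_canProd hd h0 hB.le hf
  have hP0 : P 0 = 1 := by simp [hP, canFactor]
  obtain ⟨G, hG⟩ : ∃ G : ℂ → ℂ, G = fun z => cexp (logDeriv f 0 * z) * P z := ⟨_, rfl⟩
  have hGd : Differentiable ℂ G := by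
    rw [hG]
    exact (differentiable_id.const_mul _).cexp.mul hPd
  have hG0 : G 0 = 1 := by simp [hG, hP0]
  obtain ⟨r, hr, hr'⟩ : ∃ r > 0, ∀ z : ℂ, ‖z‖ < r → P z ≠ 0 ∧ f z ≠ 0 := by
    have h1 : ∀ᶠ z in 𝓝 (0 : ℂ), P z ≠ 0 ∧ f z ≠ 0 :=
      (hPd.continuous.continuousAt.eventually_ne (by rw [hP0]; exact one_ne_zero)).and
        (hd.continuous.continuousAt.eventually_ne h0)
    obtain ⟨r, hr, h⟩ := Metric.eventually_nhds_iff.1 h1
    exact ⟨r, hr, fun z hz => h (by rwa [dist_zero_right])⟩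
  have hGne : ∀ z, ‖z‖ < r → G z ≠ 0 := fun z hz => by
    rw [hG]
    exact mul_ne_zero (Complex.exp_ne_zero _) (hr' z hz).1
  have hld : ∀ z : ℂ, ‖z‖ < r → logDeriv G z = logDeriv f z := fun z hz => by
    obtain ⟨hPz, hxz⟩ := hr' z hz
    have h := logDeriv_tprod_eq_tsum (f := canFactor f) (s := ball (0 : ℂ) (‖z‖ + 1)) (x := z)
      isOpen_ball (mem_ball_zero_iff.2 (lt_add_one _))
      (fun ρ => (logDeriv_canFactor hd h0 hxz ρ).1)
      (fun ρ => (differentiable_canFactor ρ).differentiableOn)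
      (hasSum_logDeriv_canFactor hd h0 hB hf hxz).summable
      (hasProdLocallyUniformlyOn_canFactor hd h0 hB.le hf _).multipliableLocallyUniformlyOn
      (by rw [hP] at hPz; exact hPz)
    rw [← hP, (hasSum_logDeriv_canFactor hd h0 hB hf hxz).tsum_eq] at h
    have he : logDeriv (fun w => cexp (logDeriv f 0 * w)) z = logDeriv f 0 := by
      rw [logDeriv_apply, ((hasDerivAt_id' z).const_mul _).cexp.deriv]
      field_simp
    rw [hG, logDeriv_mul (f := fun w => cexp (logDeriv f 0 * w)) (g := P) z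
      (Complex.exp_ne_zero _) hPz ((differentiable_id.const_mul _).cexp z) (hPd z), he, h]
    ring
  obtain ⟨Q, hQ⟩ : ∃ Q : ℂ → ℂ, Q = fun z => f z / G z := ⟨_, rfl⟩
  have hQ0 : ∀ z ∈ ball (0 : ℂ) r, HasDerivAt Q 0 z := fun z hz => by
    have hz' := mem_ball_zero_iff.1 hz
    have h := hld z hz'
    rw [logDeriv_apply, logDeriv_apply, div_eq_div_iff (hGne z hz') (hr' z hz').2] at h
    have hdq := (hd z).hasDerivAt.div (hGd z).hasDerivAt (hGne z hz')
    rw [hQ]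
    refine hdq.congr_deriv ?_
    rw [div_eq_zero_iff]
    exact Or.inl (by linear_combination -h)
  have hconst : ∀ z ∈ ball (0 : ℂ) r, Q z = Q 0 := fun z hz =>
    (convex_ball (0 : ℂ) r).is_const_of_fderivWithin_eq_zero (𝕜 := ℂ)
      (fun w hw => (hQ0 w hw).differentiableAt.differentiableWithinAt) (fun w hw => by
        rw [fderivWithin_of_isOpen isOpen_ball hw]
        exact ((hQ0 w hw).hasFDerivAt).fderiv.trans (by simp)) hz (mem_ball_self hr)
  have hloc : f =ᶠ[𝓝 0] fun z => f 0 * G z := by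
    filter_upwards [ball_mem_nhds (0 : ℂ) hr] with z hz
    have h1 := hconst z hz
    simp only [hQ, hG0, div_one] at h1
    rwa [div_eq_iff (hGne z (mem_ball_zero_iff.1 hz))] at h1
  have := AnalyticOnNhd.eqOn_of_preconnected_of_eventuallyEq (U := univ)
    (fun z _ => hd.analyticAt z) (fun z _ => (hGd.const_mul _).analyticAt z) isPreconnected_univ
    (mem_univ (0 : ℂ)) hloc (mem_univ s)
  rw [this, hG, hP]
  ring

theorem hasProd_canFactor (hd : Differentiable ℂ f) (h0 : f 0 ≠ 0) (hB : 0 < B) (hf : Grows f B)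
    (s : ℂ) : HasProd (fun ρ => canFactor f ρ s) (f s / (f 0 * cexp (logDeriv f 0 * s))) := by
  have h := (hasProdLocallyUniformlyOn_canFactor hd h0 hB.le hf (‖s‖ + 1)).hasProd
    (mem_ball_zero_iff.2 (lt_add_one _))
  have e := eq_canProd hd h0 hB hf s
  obtain ⟨c, hc⟩ : ∃ c, c = f 0 * cexp (logDeriv f 0 * s) := ⟨_, rfl⟩
  rw [← hc] at e ⊢
  rwa [e, mul_div_cancel_left₀ _ (hc ▸ mul_ne_zero h0 (Complex.exp_ne_zero _))]

end FA.DedekindHadamard

end
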