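import Fermat.Agent.DedekindHadamard.Product
import Fermat.Agent.DedekindZeroCount.Main
import Fermat.Agent.DegreeGap.Gamma
import Fermat.Agent.StarkOdlyzko.Bound

/-!
# The completed zeta function of a number field has genus one

`ξ_K` grows like `exp (O (|z| log |z|))`, its multiset of zeros is invariant under `ρ ↦ 1 - ρ` and
`ρ ↦ conj ρ`, and `re (ξ'/ξ) s = ∑ m re (1 / (s - ρ))`.
-/

set_option autoImplicit false
set_option linter.style.haveILetI false

noncomputable section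

universe u

open NumberField InfinitePlace Module Complex Filter Topology Set
open FA.HeckeBS FA.HeckeFE FA.DedekindZeroCount FA.StarkOdlyzko
open FA.DeuringHeilbronn (Grows)
open scoped Real Classical ComplexConjugate

namespace FA.DedekindHadamard

variable (K : Type u) [Field K] [NumberField K]

theorem xiFun_zero_eq : xiFun K 0 = (polarR K : ℂ) := by
  rw [show (0 : ℂ) = 1 - 1 by ring, xiFun_one_sub, xiFun_one]

theorem xiFun_zero_ne : xiFun K 0 ≠ 0 := by
  rw [xiFun_zero_eq]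
  exact ofReal_ne_zero.2 (polarR_pos K).ne'

theorem norm_xiFun_le_real (z : ℂ) : ‖xiFun K z‖ ≤ xiR K (‖z‖ + 2) := by
  have hz := norm_nonneg z
  have hre := abs_le.1 (Complex.abs_re_le_norm z)
  have hX : ‖zetaXi K z‖ ≤ zetaXiR K (‖z‖ + 2) := by
    refine (norm_zetaXi_le z).trans ?_
    rcases le_total (1 / 2) z.re with h | h
    · exact zetaXiR_mono h (by linarith)
    · rw [← zetaXiR_one_sub]; exact zetaXiR_mono (by linarith) (by linarith)
  have h1 : ‖z - 1‖ ≤ ‖z‖ + 2 - 1 := (norm_sub_le _ _).trans (by rw [norm_one]; linarith)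
  rw [xiFun, polarConst_ofReal, xiR]
  refine (norm_add_le _ _).trans ?_
  rw [norm_mul, norm_mul, norm_real, Real.norm_of_nonneg (polarR_pos K).le]
  exact add_le_add (mul_le_mul (mul_le_mul (by linarith) h1 (norm_nonneg _) (by linarith)) hX
    (norm_nonneg _) (mul_nonneg (by linarith) (by linarith))) le_rfl

theorem log_Gamma_le {x : ℝ} (hx : 1 / 2 ≤ x) :
    Real.log (Real.Gamma x) ≤ 1 + x * Real.log (x + 1) := by
  refine (Real.log_le_log (Real.Gamma_pos_of_pos (by linarith))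
    (FA.DegreeGap.Gamma_le_rpow hx)).trans ?_
  rw [Real.log_mul two_ne_zero (Real.rpow_pos_of_pos (by linarith) _).ne',
    Real.log_rpow (by linarith)]
  linarith [Real.log_two_lt_d9]

/-- The growth constant. -/
def growC : ℝ :=
  3 + Real.log (((discr K).natAbs : ℕ) : ℝ) + 2 * nrRealPlaces K + 4 * nrComplexPlaces K +
    |Real.log (zetaR K 2)| + |Real.log (polarR K)|

theorem growC_pos : 0 < growC K := by
  have : 0 ≤ Real.log (((discr K).natAbs : ℕ) : ℝ) := discLog_nonneg K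
  rw [growC]
  positivity

/-- **`ξ_K` grows like a function of genus one.** -/
theorem grows_xiFun : Grows (xiFun K) (growC K) := fun z => by
  obtain ⟨L, hL⟩ : ∃ L, L = Real.log (‖z‖ + 3) := ⟨_, rfl⟩
  have hz := norm_nonneg z
  have hL1 : 1 ≤ L := by
    rw [hL, Real.le_log_iff_exp_le (by linarith)]
    linarith [Real.exp_one_lt_d9]
  obtain ⟨X, hX⟩ : ∃ X, X = ‖z‖ + 2 := ⟨_, rfl⟩
  have hX2 : 2 ≤ X := by linarith
  have hX1 : 1 < X := by linarith
  obtain ⟨Y, hY⟩ : ∃ Y, Y = (‖z‖ + 1) * L := ⟨_, rfl⟩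
  have hLY : L ≤ Y := hY ▸ le_mul_of_one_le_left (by linarith) (by linarith)
  have hY1 : 1 ≤ Y := hL1.trans hLY
  have hπ : 0 ≤ Real.log π := Real.log_nonneg (by linarith [Real.pi_gt_three])
  have h2π : 0 ≤ Real.log (2 * π) := Real.log_nonneg (by linarith [Real.pi_gt_three])
  have hlogX : Real.log X ≤ L ∧ Real.log (X - 1) ≤ L := hL ▸
    ⟨Real.log_le_log (by linarith) (by linarith), Real.log_le_log (by linarith) (by linarith)⟩
  have hR : logR X ≤ 2 * Y := by
    have a := log_Gamma_le (x := X / 2) (by linarith)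
    have b : X / 2 * Real.log (X / 2 + 1) ≤ Y := by
      rw [hY, hL]
      exact mul_le_mul (by linarith) (Real.log_le_log (by linarith) (by linarith))
        (Real.log_nonneg (by linarith)) (by linarith)
    have c : -X / 2 * Real.log π ≤ 0 := mul_nonpos_of_nonpos_of_nonneg (by linarith) hπ
    rw [logR]
    linarith
  have hC : logC X ≤ 4 * Y := by
    have a := log_Gamma_le (x := X) (by linarith)
    have b : X * Real.log (X + 1) ≤ 2 * Y := by
      rw [hY, hL, ← mul_assoc]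
      exact mul_le_mul (by linarith) (Real.log_le_log (by linarith) (by linarith))
        (Real.log_nonneg (by linarith)) (by linarith)
    have c : -X * Real.log (2 * π) ≤ 0 := mul_nonpos_of_nonpos_of_nonneg (by linarith) h2π
    rw [logC]
    linarith [Real.log_two_lt_d9]
  obtain ⟨D, hD⟩ : ∃ D, D = Real.log (((discr K).natAbs : ℕ) : ℝ) := ⟨_, rfl⟩
  have hD0 : 0 ≤ D := hD ▸ discLog_nonneg K
  have hlog : Real.log (xiR K X) ≤ (2 + D + 2 * nrRealPlaces K + 4 * nrComplexPlaces K +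
      |Real.log (zetaR K 2)|) * Y := by
    rw [xiR_eq K hX1, Real.log_mul (polyGam_pos K hX1).ne' (zetaR_pos K hX1).ne',
      log_polyGam K hX1, ← hD]
    have a := Real.log_le_log (zetaR_pos K hX1) (zetaR_anti K (show (1 : ℝ) < 2 by norm_num) hX2)
    have b : X / 2 * D ≤ D * Y := by
      rw [mul_comm]
      refine mul_le_mul_of_nonneg_left ?_ hD0
      rw [hY]
      nlinarith
    have c := mul_le_mul_of_nonneg_left hR (Nat.cast_nonneg (nrRealPlaces K) : (0 : ℝ) ≤ _)
    have d := mul_le_mul_of_nonneg_left hC (Nat.cast_nonneg (nrComplexPlaces K) : (0 : ℝ) ≤ _)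
    have e := (le_abs_self (Real.log (zetaR K 2))).trans
      (le_mul_of_one_le_right (abs_nonneg _) hY1)
    linarith [hlogX.1, hlogX.2]
  have hP := polarR_pos K
  have hpos : 0 < xiR K X := by
    rw [xiR_eq K hX1]
    exact mul_pos (polyGam_pos K hX1) (zetaR_pos K hX1)
  rw [xiFun_zero_eq, norm_real, Real.norm_of_nonneg hP.le, ← hL, ← hY]
  refine ((norm_xiFun_le_real K z).trans (le_of_eq (by rw [← hX]))).trans ?_
  rw [← Real.exp_log hP, ← Real.exp_add, ← Real.exp_log hpos]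
  refine Real.exp_le_exp.2 ?_
  have f := (neg_le_abs (Real.log (polarR K))).trans
    (le_mul_of_one_le_right (abs_nonneg _) hY1)
  rw [growC, ← hD]
  linarith

/-- The multiplicity of a zero. -/
def xiMult (ρ : ℂ) : ℕ := fMult (xiFun K) ρ

theorem xiMult_ne_zero_iff {ρ : ℂ} : xiMult K ρ ≠ 0 ↔ xiFun K ρ = 0 :=
  fMult_ne_zero_iff (differentiable_xiFun K) (xiFun_zero_ne K)

theorem xiMult_eq_order {ρ : ℂ} (h : 0 < ρ.re) :
    xiMult K ρ = analyticOrderNatAt (cleared K) ρ :=
  analyticOrderNatAt_xi K h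

theorem xiMult_one_sub (ρ : ℂ) : xiMult K (1 - ρ) = xiMult K ρ := by
  have hg : AnalyticAt ℂ (fun s : ℂ => 1 - s) ρ := analyticAt_const.sub analyticAt_id
  have he : (xiFun K ∘ fun s : ℂ => 1 - s) = xiFun K := funext fun s => xiFun_one_sub K s
  have h := analyticOrderAt_comp_of_deriv_ne_zero (f := xiFun K) hg (by simp)
  rw [he] at h
  rw [xiMult, xiMult, fMult, fMult, analyticOrderNatAt, analyticOrderNatAt, ← h]

theorem xiMult_conj (ρ : ℂ) : xiMult K (conj ρ) = xiMult K ρ := by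
  have hn := FA.DirichletHadamard.analyticOrderAt_conj_comp (differentiable_xiFun K) (z := ρ)
    (n := xiMult K ρ) (ENat.natCast_toNat (DedekindZeroCount.order_xi_ne_top K ρ)).symm
  rw [show conj ∘ xiFun K ∘ conj = xiFun K from funext fun z => by
    simp [Function.comp, xi_conj]] at hn
  rw [xiMult, fMult, analyticOrderNatAt, hn, ENat.toNat_natCast]

theorem xiMult_reflect (ρ : ℂ) : xiMult K (1 - conj ρ) = xiMult K ρ := by
  rw [xiMult_one_sub, xiMult_conj]

theorem xiLog_eq_logDeriv (s : ℂ) : xiLog K s = logDeriv (xiFun K) s := (logDeriv_apply _ _).symm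

/-- **The partial fractions of `ξ'/ξ`.** -/
theorem hasSum_xiFrac {s : ℂ} (hs : xiFun K s ≠ 0) :
    HasSum (fun ρ : ℂ => (xiMult K ρ : ℂ) * ((s - ρ)⁻¹ + ρ⁻¹)) (xiLog K s - xiLog K 0) := by
  have h := hasSum_fracPart (differentiable_xiFun K) (xiFun_zero_ne K) (growC_pos K)
    (grows_xiFun K) hs
  rw [← xiLog_eq_logDeriv, ← xiLog_eq_logDeriv] at h
  exact h

/-- `m re (1 / (s - ρ))`. -/
def reTerm (s ρ : ℂ) : ℝ := (xiMult K ρ : ℝ) * ((s - ρ)⁻¹).re

theorem summable_re_inv : Summable fun ρ : ℂ => (xiMult K ρ : ℝ) * (ρ⁻¹).re := by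
  refine Summable.of_norm_bounded (summable_inv_sq (differentiable_xiFun K) (xiFun_zero_ne K)
    (growC_pos K).le (grows_xiFun K)) fun ρ => ?_
  rw [norm_mul, RCLike.norm_natCast]
  by_cases hm : xiMult K ρ = 0
  · rw [hm, Nat.cast_zero, zero_mul]
    positivity
  refine mul_le_mul_of_nonneg_left ?_ (Nat.cast_nonneg _)
  obtain ⟨h0, h1⟩ := xi_zero_strip K ((xiMult_ne_zero_iff K).1 hm)
  rw [Real.norm_eq_abs, inv_re, normSq_eq_norm_sq, abs_div, abs_of_pos h0,
    abs_of_nonneg (sq_nonneg _), div_eq_mul_inv]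
  exact mul_le_of_le_one_left (by positivity) h1.le

theorem hasSum_reTerm_aux {s : ℂ} (hs : xiFun K s ≠ 0) :
    HasSum (reTerm K s)
      ((xiLog K s).re - (xiLog K 0).re - ∑' ρ : ℂ, (xiMult K ρ : ℝ) * (ρ⁻¹).re) := by
  have h := (Complex.hasSum_re (hasSum_xiFrac K hs)).sub (summable_re_inv K).hasSum
  rw [sub_re] at h
  refine h.congr_fun fun ρ => ?_
  rw [reTerm, ← ofReal_natCast, re_ofReal_mul, add_re]
  ring

/-- `ρ ↦ 1 - conj ρ`. -/
def reflectPoint : ℂ ≃ ℂ where
  toFun ρ := 1 - conj ρ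
  invFun ρ := 1 - conj ρ
  left_inv ρ := by simp
  right_inv ρ := by simp

theorem reTerm_reflect (s ρ : ℂ) :
    reTerm K (1 - conj s) (reflectPoint ρ) = -reTerm K s ρ := by
  rw [reTerm, reTerm, show reflectPoint ρ = 1 - conj ρ from rfl,
    xiMult_reflect, show 1 - conj s - (1 - conj ρ) = -conj (s - ρ) by rw [map_sub]; ring, inv_neg,
    ← map_inv₀, neg_re, conj_re, mul_neg]

theorem tsum_re_inv_eq_neg :
    ∑' ρ : ℂ, (xiMult K ρ : ℝ) * (ρ⁻¹).re = -(xiLog K 0).re := by
  obtain ⟨s, hs⟩ : ∃ s : ℂ, s = 2 := ⟨_, rfl⟩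
  have hxs : xiFun K s ≠ 0 := xi_ne_zero_right K (by simp [hs])
  have hxs' : xiFun K (1 - conj s) ≠ 0 := by rwa [xiFun_one_sub, xi_conj, map_ne_zero]
  have h2 := reflectPoint.hasSum_iff.2 (hasSum_reTerm_aux K hxs')
  have h3 := (h2.congr_fun (g := fun ρ => -reTerm K s ρ)
    fun ρ => (reTerm_reflect K s ρ).symm).unique (hasSum_reTerm_aux K hxs).neg
  rw [xiLog_reflect, neg_re, conj_re] at h3
  linarith

/-- **`re (ξ'/ξ) s = ∑ m re (1 / (s - ρ))`.** -/
theorem hasSum_reTerm {s : ℂ} (hs : xiFun K s ≠ 0) :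
    HasSum (reTerm K s) (xiLog K s).re := by
  have h := hasSum_reTerm_aux K hs
  rwa [tsum_re_inv_eq_neg, sub_neg_eq_add, sub_add_cancel] at h

/-- **`∑ m re (1 / ρ) = ξ'/ξ 1`.** -/
theorem hasSum_re_inv :
    HasSum (fun ρ : ℂ => (xiMult K ρ : ℝ) * (ρ⁻¹).re) (xiLog K 1).re := by
  refine (reflectPoint.hasSum_iff.2
    (hasSum_reTerm K (xi_ne_zero_right K (s := 1) le_rfl))).congr_fun fun ρ => ?_
  rw [Function.comp_apply, reTerm,
    show reflectPoint ρ = 1 - conj ρ from rfl, xiMult_reflect, sub_sub_cancel,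
    ← map_inv₀, conj_re]

end FA.DedekindHadamard

end
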